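import Mathlib.Analysis.Fourier.AddCircle
import Mathlib.Tactic.LinearCombination

/-!
# Partial Riesz products

For frequencies with `n (k + 1) ≥ 3 n k` and `‖c k‖ ≤ 1` the product `∏ (1 + Re (c k e (n k x)))`
is nonnegative of mean one; a new factor only meets the old spectrum in the frequency zero.
-/

set_option autoImplicit false

noncomputable section

open MeasureTheory Finset Filter Topology AddCircle
open scoped ComplexConjugate

namespace FA.RieszProducts

/-- Positive frequencies, each at least three times the previous one. -/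
def IsGap (n : ℕ → ℕ) : Prop := 0 < n 0 ∧ ∀ k, 3 * n k ≤ n (k + 1)

/-- The degree of the partial product. -/
def degreeBound (n : ℕ → ℕ) (K : ℕ) : ℕ := ∑ i ∈ range K, n i

theorem degreeBound_succ (n : ℕ → ℕ) (K : ℕ) :
    degreeBound n (K + 1) = degreeBound n K + n K := sum_range_succ _ _

theorem le_degreeBound (n : ℕ → ℕ) {i K : ℕ} (h : i < K) : n i ≤ degreeBound n K :=
  single_le_sum (fun _ _ => Nat.zero_le _) (mem_range.2 h)

theorem IsGap.two_mul_degreeBound_lt {n : ℕ → ℕ} (h : IsGap n) (K : ℕ) :
    2 * degreeBound n K < n K := by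
  induction K with
  | zero => simpa [degreeBound] using h.1
  | succ K ih =>
    have := h.2 K
    rw [degreeBound_succ]
    omega

theorem IsGap.strictMono {n : ℕ → ℕ} (h : IsGap n) : StrictMono n :=
  strictMono_nat_of_lt_succ fun k => by
    have := h.two_mul_degreeBound_lt k
    have := h.2 k
    omega

theorem IsGap.three_mul_le {n : ℕ → ℕ} (h : IsGap n) {i j : ℕ} (hij : i < j) : 3 * n i ≤ n j :=
  (h.2 i).trans (h.strictMono.monotone hij)

theorem IsGap.degreeBound_mono (n : ℕ → ℕ) : Monotone (degreeBound n) :=
  monotone_nat_of_le_succ fun K => by rw [degreeBound_succ]; omega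

/-- The partial Riesz product. -/
def partialProduct (n : ℕ → ℕ) (c : ℕ → ℂ) (K : ℕ) (x : UnitAddCircle) : ℝ :=
  ∏ k ∈ range K, (1 + (c k * fourier (n k : ℤ) x).re)

theorem continuous_partialProduct (n : ℕ → ℕ) (c : ℕ → ℂ) (K : ℕ) :
    Continuous (partialProduct n c K) := by
  unfold partialProduct
  fun_prop

theorem partialProduct_nonneg {n : ℕ → ℕ} {c : ℕ → ℂ} (hc : ∀ k, ‖c k‖ ≤ 1) (K : ℕ)
    (x : UnitAddCircle) : 0 ≤ partialProduct n c K x := by
  refine prod_nonneg fun k _ => ?_
  have h : ‖c k * fourier (n k : ℤ) x‖ ≤ 1 := by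
    rw [norm_mul, fourier_apply, Circle.norm_coe, mul_one]
    exact hc k
  linarith [neg_abs_le (c k * fourier (n k : ℤ) x).re,
    (Complex.abs_re_le_norm (c k * fourier (n k : ℤ) x)).trans h]

theorem integral_fourier (m : ℤ) :
    ∫ x : UnitAddCircle, fourier m x ∂haarAddCircle = if m = 0 then 1 else 0 := by
  have e := congrFun (fourierCoeff_fourier (T := (1 : ℝ)) m) 0
  rw [fourierCoeff] at e
  simp only [neg_zero, fourier_zero, one_smul] at e
  rw [e, Pi.single_apply]
  by_cases h0 : m = 0 <;> simp [h0, eq_comm]

theorem integrable_mul_fourier {μ : Measure UnitAddCircle} {f : UnitAddCircle → ℂ}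
    (hf : Integrable f μ) (m : ℤ) : Integrable (fun x => f x * fourier m x) μ :=
  hf.mul_bdd (c := 1) (fourier m).continuous.aestronglyMeasurable
    (Eventually.of_forall fun x => by rw [fourier_apply, Circle.norm_coe])

theorem integrable_mul_partialProduct {μ : Measure UnitAddCircle} {f : UnitAddCircle → ℂ}
    (hf : Integrable f μ) (n : ℕ → ℕ) (c : ℕ → ℂ) (K : ℕ) :
    Integrable (fun x => f x * (partialProduct n c K x : ℂ)) μ := by
  obtain ⟨C, hC⟩ := isCompact_univ.exists_bound_of_continuousOn
    (continuous_partialProduct n c K).continuousOn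
  exact hf.mul_bdd (c := C)
    (Complex.continuous_ofReal.comp (continuous_partialProduct n c K)).aestronglyMeasurable
    (Eventually.of_forall fun x => by rw [Complex.norm_real]; exact hC x trivial)

theorem integrable_fourier {μ : Measure UnitAddCircle} [IsFiniteMeasure μ] (m : ℤ) :
    Integrable (fun x => fourier m x) μ :=
  (fourier m).continuous.integrable_of_hasCompactSupport (HasCompactSupport.of_compactSpace _)

/-- The integral against a partial product. -/
def pairing (n : ℕ → ℕ) (c : ℕ → ℂ) (K : ℕ) (f : UnitAddCircle → ℂ) : ℂ :=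
  ∫ x, f x * (partialProduct n c K x : ℂ) ∂haarAddCircle

variable {n : ℕ → ℕ} (c : ℕ → ℂ)

theorem pairing_zero (f : UnitAddCircle → ℂ) : pairing n c 0 f = ∫ x, f x ∂haarAddCircle := by
  simp [pairing, partialProduct]

/-- **The recursion.** -/
theorem pairing_succ {f : UnitAddCircle → ℂ} (hf : Integrable f haarAddCircle) (K : ℕ) :
    pairing n c (K + 1) f = pairing n c K f +
      c K / 2 * pairing n c K (fun x => f x * fourier (n K : ℤ) x) +
      conj (c K) / 2 * pairing n c K (fun x => f x * fourier (-(n K : ℤ)) x) := by
  simp only [pairing]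
  rw [← integral_const_mul, ← integral_const_mul, ← integral_add
      (integrable_mul_partialProduct hf n c K)
      ((integrable_mul_partialProduct (integrable_mul_fourier hf _) n c K).const_mul _),
    ← integral_add ((integrable_mul_partialProduct hf n c K).fun_add
      ((integrable_mul_partialProduct (integrable_mul_fourier hf _) n c K).const_mul _))
      ((integrable_mul_partialProduct (integrable_mul_fourier hf _) n c K).const_mul _)]
  refine integral_congr_ae (Eventually.of_forall fun x => ?_)
  simp only [partialProduct, prod_range_succ, Complex.ofReal_mul, Complex.ofReal_add,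
    Complex.ofReal_one, Complex.re_eq_add_conj, map_mul, ← fourier_neg]
  ring

/-- A partial product does not see what vanishes on its spectrum. -/
theorem pairing_eq_integral (h : IsGap n) (K : ℕ) {f : UnitAddCircle → ℂ}
    (hf : Integrable f haarAddCircle)
    (h0 : ∀ j : ℤ, j ≠ 0 → j.natAbs ≤ degreeBound n K →
      ∫ x, f x * fourier j x ∂haarAddCircle = 0) :
    pairing n c K f = ∫ x, f x ∂haarAddCircle := by
  induction K generalizing f with
  | zero => exact pairing_zero c f
  | succ K ih =>
    have hK := h.two_mul_degreeBound_lt K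
    have hB := degreeBound_succ n K
    have key : ∀ s : ℤ, s.natAbs = n K →
        pairing n c K (fun x => f x * fourier s x) = 0 := fun s hs => by
      rw [ih (integrable_mul_fourier hf s) fun j hj hjB => ?_]
      · exact h0 s (by omega) (by omega)
      · simp_rw [mul_assoc, ← fourier_add]
        exact h0 _ (by omega) (by omega)
    rw [pairing_succ c hf, ih hf fun j hj hjB => h0 j hj (by omega), key _ (Int.natAbs_natCast _),
      key _ (by simp), mul_zero, mul_zero, add_zero, add_zero]

/-- The transform of a partial product. -/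
def coeff (n : ℕ → ℕ) (c : ℕ → ℂ) (K : ℕ) (m : ℤ) : ℂ := pairing n c K fun x => fourier m x

theorem coeff_zero_index (h : IsGap n) (K : ℕ) : coeff n c K 0 = 1 := by
  rw [coeff, pairing_eq_integral c h K (integrable_fourier 0) fun j hj _ => ?_, integral_fourier,
    if_pos rfl]
  simp_rw [← fourier_add]
  rw [integral_fourier, if_neg (by simpa using hj)]

theorem coeff_eq_zero (h : IsGap n) {K : ℕ} {m : ℤ} (hm : degreeBound n K < m.natAbs) :
    coeff n c K m = 0 := by
  rw [coeff, pairing_eq_integral c h K (integrable_fourier m) fun j hj hjB => ?_, integral_fourier,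
    if_neg (by omega)]
  simp_rw [← fourier_add]
  rw [integral_fourier, if_neg (by omega)]

theorem coeff_succ (K : ℕ) (m : ℤ) :
    coeff n c (K + 1) m = coeff n c K m + c K / 2 * coeff n c K (m + n K) +
      conj (c K) / 2 * coeff n c K (m - n K) := by
  simp only [coeff, sub_eq_add_neg, pairing_succ c (integrable_fourier m) K, ← fourier_add]

theorem coeff_succ_of_lt (h : IsGap n) {K : ℕ} {m : ℤ}
    (hm : degreeBound n K + m.natAbs < n K) : coeff n c (K + 1) m = coeff n c K m := by
  rw [coeff_succ, coeff_eq_zero c h (m := m + n K) (by omega),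
    coeff_eq_zero c h (m := m - n K) (by omega), mul_zero, mul_zero, add_zero, add_zero]

/-- **The coefficients settle.** -/
theorem coeff_eq_of_le (h : IsGap n) {K J : ℕ} {m : ℤ} (hm : m.natAbs ≤ degreeBound n K)
    (hKJ : K ≤ J) : coeff n c J m = coeff n c K m := by
  induction J, hKJ using Nat.le_induction with
  | base => rfl
  | succ J hJ ih =>
    have := h.two_mul_degreeBound_lt J
    have := IsGap.degreeBound_mono n hJ
    rw [coeff_succ_of_lt c h (by omega), ih]

theorem coeff_neg_self (h : IsGap n) {k K : ℕ} (hk : k < K) :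
    coeff n c K (-(n k : ℤ)) = c k / 2 := by
  have h2 := h.two_mul_degreeBound_lt k
  rw [coeff_eq_of_le c h (K := k + 1) (by rw [degreeBound_succ]; omega) hk, coeff_succ,
    coeff_eq_zero c h (by omega), neg_add_cancel, coeff_zero_index c h,
    coeff_eq_zero c h (m := -(n k : ℤ) - n k) (by omega)]
  ring

theorem coeff_self (h : IsGap n) {k K : ℕ} (hk : k < K) :
    coeff n c K (n k : ℤ) = conj (c k) / 2 := by
  have h2 := h.two_mul_degreeBound_lt k
  rw [coeff_eq_of_le c h (K := k + 1) (by rw [degreeBound_succ]; omega) hk, coeff_succ,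
    coeff_eq_zero c h (by omega), sub_self, coeff_zero_index c h,
    coeff_eq_zero c h (m := (n k : ℤ) + n k) (by omega)]
  ring

/-- **The factors are uncorrelated.** -/
theorem coeff_sub (h : IsGap n) {j k K : ℕ} (hj : j < K) (hk : k < K) (hne : j ≠ k) :
    coeff n c K ((n j : ℤ) - n k) = conj (c j) / 2 * (c k / 2) := by
  rcases hne.lt_or_gt with hjk | hjk
  · have h2 := h.two_mul_degreeBound_lt k
    have h3 := le_degreeBound n hjk
    rw [coeff_eq_of_le c h (K := k + 1) (by rw [degreeBound_succ]; omega) hk, coeff_succ,
      coeff_eq_zero c h (by omega), sub_add_cancel, coeff_self c h hjk,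
      coeff_eq_zero c h (m := (n j : ℤ) - n k - n k) (by omega)]
    ring
  · have h2 := h.two_mul_degreeBound_lt j
    have h3 := le_degreeBound n hjk
    rw [coeff_eq_of_le c h (K := j + 1) (by rw [degreeBound_succ]; omega) hj, coeff_succ,
      coeff_eq_zero c h (by omega), coeff_eq_zero c h (m := (n j : ℤ) - n k + n j) (by omega),
      show (n j : ℤ) - n k - n j = -(n k : ℤ) by ring, coeff_neg_self c h hjk]
    ring

/-- **The square of a partial product.** -/
theorem pairing_partialProduct_succ (h : IsGap n) (K : ℕ) :
    pairing n c (K + 1) (fun x => (partialProduct n c (K + 1) x : ℂ)) =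
      (1 + c K * conj (c K) / 2) * pairing n c K (fun x => (partialProduct n c K x : ℂ)) := by
  have h2 := h.two_mul_degreeBound_lt K
  have hint : Integrable (fun x => (partialProduct n c K x : ℂ)) haarAddCircle := by
    simpa using integrable_mul_partialProduct (f := fun _ => (1 : ℂ)) (integrable_const 1) n c K
  set J : ℤ → ℂ := fun j =>
    pairing n c K (fun x => (partialProduct n c K x : ℂ) * fourier j x) with hJ
  have hfar : ∀ j : ℤ, 2 * degreeBound n K < j.natAbs → J j = 0 := fun j hj => by
    have hcom : ∀ i : ℤ, ∫ x, (partialProduct n c K x : ℂ) * fourier i x ∂haarAddCircle =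
        coeff n c K i := fun i => by simp only [coeff, pairing, mul_comm]
    simp only [hJ]
    rw [pairing_eq_integral c h K (integrable_mul_fourier hint j) fun i hi hiB => ?_, hcom,
      coeff_eq_zero c h (by omega)]
    simp_rw [mul_assoc, ← fourier_add, hcom]
    exact coeff_eq_zero c h (by omega)
  have hstep : ∀ j : ℤ, pairing n c (K + 1) (fun x => (partialProduct n c K x : ℂ) * fourier j x) =
      J j + c K / 2 * J (j + n K) + conj (c K) / 2 * J (j + -(n K : ℤ)) := fun j => by
    rw [pairing_succ c (integrable_mul_fourier hint j)]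
    simp only [hJ, mul_assoc, ← fourier_add]
  have hswap : ∀ j : ℤ,
      pairing n c K (fun x => (partialProduct n c (K + 1) x : ℂ) * fourier j x) =
        pairing n c (K + 1) (fun x => (partialProduct n c K x : ℂ) * fourier j x) := fun j => by
    simp only [pairing]
    exact integral_congr_ae (Eventually.of_forall fun x => by ring)
  have hint' : Integrable (fun x => (partialProduct n c (K + 1) x : ℂ)) haarAddCircle := by
    simpa using integrable_mul_partialProduct (f := fun _ => (1 : ℂ)) (integrable_const 1) n c
      (K + 1)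
  rw [pairing_succ c hint']
  have h00 : pairing n c K (fun x => (partialProduct n c (K + 1) x : ℂ)) =
      pairing n c (K + 1) (fun x => (partialProduct n c K x : ℂ) * fourier 0 x) := by
    rw [← hswap 0]
    simp
  rw [h00, hswap, hswap, hstep, hstep, hstep, zero_add, zero_add, add_neg_cancel, neg_add_cancel,
    hfar (n K : ℤ) (by omega), hfar (-(n K : ℤ)) (by omega),
    hfar ((n K : ℤ) + n K) (by omega), hfar (-(n K : ℤ) + -(n K : ℤ)) (by omega)]
  simp only [hJ, fourier_zero, mul_one]
  ring

end FA.RieszProducts

end
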