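import Fermat.Agent.RieszProducts.Basic
import Mathlib.MeasureTheory.Measure.Prokhorov
import Mathlib.MeasureTheory.Measure.Portmanteau

/-!
# The measure of a Riesz product

The partial products, taken as densities, converge weakly to the one probability measure whose
transform is the stationary value of theirs.
-/

set_option autoImplicit false

noncomputable section

open MeasureTheory Finset Filter Topology AddCircle
open scoped ComplexConjugate BoundedContinuousFunction

namespace FA.RieszProducts

/-- The weak limit of the partial products. -/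
def IsRieszProduct (n : ℕ → ℕ) (c : ℕ → ℂ) (μ : Measure UnitAddCircle) : Prop :=
  IsProbabilityMeasure μ ∧ ∀ g : C(UnitAddCircle, ℂ),
    Tendsto (fun K => pairing n c K g) atTop (𝓝 (∫ x, g x ∂μ))

/-- Integration against a finite measure, as a functional. -/
def integralFunctional (μ : Measure UnitAddCircle) [IsFiniteMeasure μ] :
    C(UnitAddCircle, ℂ) →L[ℂ] ℂ :=
  LinearMap.mkContinuous
    { toFun := fun g => ∫ x, g x ∂μ
      map_add' := fun f g => integral_add
        (f.continuous.integrable_of_hasCompactSupport (HasCompactSupport.of_compactSpace _))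
        (g.continuous.integrable_of_hasCompactSupport (HasCompactSupport.of_compactSpace _))
      map_smul' := fun a f => integral_smul a _ }
    (μ.real Set.univ) fun g => by
      refine (norm_integral_le_of_norm_le_const
        (Eventually.of_forall fun x => g.norm_coe_le_norm x)).trans (le_of_eq ?_)
      rw [mul_comm]

/-- A finite measure is determined by its transform. -/
theorem ext_of_integral_fourier {μ ν : Measure UnitAddCircle} [IsFiniteMeasure μ]
    [IsFiniteMeasure ν] (h : ∀ m : ℤ, ∫ x, fourier m x ∂μ = ∫ x, fourier m x ∂ν) : μ = ν := by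
  have e : integralFunctional μ = integralFunctional ν :=
    ContinuousLinearMap.ext_on
      ((Submodule.dense_iff_topologicalClosure_eq_top).2 span_fourier_closure_eq_top)
      (by rintro _ ⟨m, rfl⟩; exact h m)
  refine ext_of_forall_integral_eq_of_IsFiniteMeasure fun g => ?_
  have h2 := congrArg (fun L => L ⟨fun x => (g x : ℂ), by fun_prop⟩) e
  change ∫ x, (g x : ℂ) ∂μ = ∫ x, (g x : ℂ) ∂ν at h2
  rw [integral_complex_ofReal, integral_complex_ofReal] at h2
  exact_mod_cast h2

variable {n : ℕ → ℕ} {c : ℕ → ℂ}

theorem self_le_degreeBound (h : IsGap n) : ∀ K, K ≤ degreeBound n K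
  | 0 => Nat.zero_le _
  | K + 1 => by
    have := self_le_degreeBound h K
    have := h.two_mul_degreeBound_lt K
    rw [degreeBound_succ]
    omega

theorem tendsto_coeff (h : IsGap n) (m : ℤ) :
    Tendsto (fun K => coeff n c K m) atTop (𝓝 (coeff n c m.natAbs m)) :=
  tendsto_const_nhds.congr' (eventually_atTop.2
    ⟨m.natAbs, fun _ hK => (coeff_eq_of_le c h (self_le_degreeBound h _) hK).symm⟩)

theorem integral_partialProduct (h : IsGap n) (c : ℕ → ℂ) (K : ℕ) :
    ∫ x, partialProduct n c K x ∂haarAddCircle = 1 := by
  have := coeff_zero_index c h K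
  simp only [coeff, pairing, fourier_zero, one_mul] at this
  rw [integral_complex_ofReal] at this
  exact_mod_cast this

theorem integrable_partialProduct (n : ℕ → ℕ) (c : ℕ → ℂ) (K : ℕ) :
    Integrable (partialProduct n c K) (haarAddCircle : Measure UnitAddCircle) :=
  (continuous_partialProduct n c K).integrable_of_hasCompactSupport
    (HasCompactSupport.of_compactSpace _)

/-- The partial product as a density. -/
def partialMeasure (n : ℕ → ℕ) (c : ℕ → ℂ) (K : ℕ) : Measure UnitAddCircle :=
  haarAddCircle.withDensity fun x => ENNReal.ofReal (partialProduct n c K x)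

theorem partialMeasure_apply (hc : ∀ k, ‖c k‖ ≤ 1) (K : ℕ) {s : Set UnitAddCircle}
    (hs : MeasurableSet s) :
    partialMeasure n c K s = ENNReal.ofReal (∫ x in s, partialProduct n c K x ∂haarAddCircle) := by
  rw [partialMeasure, withDensity_apply _ hs, ofReal_integral_eq_lintegral_ofReal
    (integrable_partialProduct n c K).restrict
    (Eventually.of_forall fun x => partialProduct_nonneg hc K x)]

theorem isProbabilityMeasure_partialMeasure (h : IsGap n) (hc : ∀ k, ‖c k‖ ≤ 1) (K : ℕ) :
    IsProbabilityMeasure (partialMeasure n c K) :=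
  ⟨by rw [partialMeasure_apply hc K .univ, setIntegral_univ, integral_partialProduct h c K,
    ENNReal.ofReal_one]⟩

theorem integral_partialMeasure (hc : ∀ k, ‖c k‖ ≤ 1) (K : ℕ) (g : UnitAddCircle → ℂ) :
    ∫ x, g x ∂partialMeasure n c K = pairing n c K g := by
  rw [partialMeasure, integral_withDensity_eq_integral_toReal_smul
    (continuous_partialProduct n c K).measurable.ennreal_ofReal
    (Eventually.of_forall fun x => ENNReal.ofReal_lt_top)]
  refine integral_congr_ae (Eventually.of_forall fun x => ?_)
  simp [ENNReal.toReal_ofReal (partialProduct_nonneg hc K x), mul_comm]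

/-- The partial product as a probability measure. -/
def partialProb (h : IsGap n) (hc : ∀ k, ‖c k‖ ≤ 1) (K : ℕ) : ProbabilityMeasure UnitAddCircle :=
  ⟨partialMeasure n c K, isProbabilityMeasure_partialMeasure h hc K⟩

theorem integral_partialProb (h : IsGap n) (hc : ∀ k, ‖c k‖ ≤ 1) (K : ℕ)
    (g : UnitAddCircle → ℂ) :
    ∫ x, g x ∂(partialProb h hc K : Measure UnitAddCircle) = pairing n c K g :=
  integral_partialMeasure hc K g

theorem exists_tendsto (h : IsGap n) (hc : ∀ k, ‖c k‖ ≤ 1) :
    ∃ μ : ProbabilityMeasure UnitAddCircle, Tendsto (partialProb h hc) atTop (𝓝 μ) := by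
  set P : ℕ → ProbabilityMeasure UnitAddCircle := partialProb h hc with hP
  obtain ⟨μ, -, hμ⟩ := isCompact_univ (X := ProbabilityMeasure UnitAddCircle)
    (f := map P atTop) (by simp)
  have key : ∀ ν : ProbabilityMeasure UnitAddCircle, MapClusterPt ν atTop P → ∀ m : ℤ,
      ∫ x, fourier m x ∂(ν : Measure UnitAddCircle) = coeff n c m.natAbs m := fun ν hν m => by
    have hcont : Tendsto (fun ρ : ProbabilityMeasure UnitAddCircle =>
        ∫ x, fourier m x ∂(ρ : Measure UnitAddCircle)) (𝓝 ν)
        (𝓝 (∫ x, fourier m x ∂(ν : Measure UnitAddCircle))) :=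
      (ProbabilityMeasure.tendsto_iff_forall_integral_rclike_tendsto ℂ).1 tendsto_id
        (BoundedContinuousFunction.mkOfCompact (fourier m))
    refine eq_of_nhds_neBot ((hν.tendsto_comp hcont).clusterPt.mono
      ((tendsto_coeff h m).congr fun K => ?_))
    exact (integral_partialProb h hc K _).symm
  refine ⟨μ, tendsto_nhds_of_unique_mapClusterPt fun ν hν => ProbabilityMeasure.toMeasure_injective
    ?_⟩
  exact ext_of_integral_fourier fun m => (key ν hν m).trans (key μ hμ m).symm

/-- **Existence.** -/
theorem exists_isRieszProduct (h : IsGap n) (hc : ∀ k, ‖c k‖ ≤ 1) :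
    ∃ μ, IsRieszProduct n c μ := by
  obtain ⟨μ, hμ⟩ := exists_tendsto h hc
  refine ⟨μ, inferInstance, fun g => ?_⟩
  exact ((ProbabilityMeasure.tendsto_iff_forall_integral_rclike_tendsto ℂ).1 hμ
    (BoundedContinuousFunction.mkOfCompact g)).congr fun K => integral_partialProb h hc K g

/-- **Uniqueness.** -/
theorem IsRieszProduct.eq {μ ν : Measure UnitAddCircle} (hμ : IsRieszProduct n c μ)
    (hν : IsRieszProduct n c ν) : μ = ν := by
  have := hμ.1
  have := hν.1
  exact ext_of_integral_fourier fun m =>
    tendsto_nhds_unique (hμ.2 (fourier m)) (hν.2 (fourier m))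

theorem IsRieszProduct.integral_fourier {μ : Measure UnitAddCircle} (hμ : IsRieszProduct n c μ)
    {m : ℤ} {v : ℂ} (hv : ∀ᶠ K in atTop, coeff n c K m = v) : ∫ x, fourier m x ∂μ = v :=
  tendsto_nhds_unique (hμ.2 (fourier m))
    (tendsto_const_nhds.congr' (hv.mono fun _ hK => hK.symm))

/-- The measures of open sets are controlled by the partial products. -/
theorem IsRieszProduct.le_of_isOpen (h : IsGap n) (hc : ∀ k, ‖c k‖ ≤ 1)
    {μ : Measure UnitAddCircle} (hμ : IsRieszProduct n c μ) {U : Set UnitAddCircle}
    (hU : IsOpen U) {b : ℝ}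
    (hb : ∀ K, ∫ x in U, partialProduct n c K x ∂haarAddCircle ≤ b) :
    μ U ≤ ENNReal.ofReal b := by
  obtain ⟨ν, hν⟩ := exists_tendsto h hc
  have e : μ = (ν : Measure UnitAddCircle) := hμ.eq
    ⟨inferInstance, fun g => ((ProbabilityMeasure.tendsto_iff_forall_integral_rclike_tendsto
      ℂ).1 hν (BoundedContinuousFunction.mkOfCompact g)).congr fun K =>
        integral_partialProb h hc K g⟩
  rw [e]
  refine (ProbabilityMeasure.le_liminf_measure_open_of_tendsto hν hU).trans
    ((liminf_le_liminf (Eventually.of_forall fun K => ?_)).trans (le_of_eq (liminf_const _)))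
  rw [partialProb, ProbabilityMeasure.coe_mk, partialMeasure_apply hc K hU.measurableSet]
  exact ENNReal.ofReal_le_ofReal (hb K)

end FA.RieszProducts

end
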