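import Fermat.Agent.RieszProducts.Basic

/-!
# Sidon's theorem

Integrated against a Riesz product, a function with spectrum in `± n k` gives
`∑ Re (conj (c k) f̂ (n k))`-like sums; the right phases bound `∑ ‖f̂ (± n k)‖` by `2 sup ‖f‖`.
-/

set_option autoImplicit false

noncomputable section

open MeasureTheory Finset Filter Topology AddCircle
open scoped ComplexConjugate

namespace FA.RieszProducts

variable {n : ℕ → ℕ}

/-- Supported by `± n k`. -/
def HasGapSpectrum (n : ℕ → ℕ) (f : UnitAddCircle → ℂ) : Prop :=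
  ∀ j : ℤ, (∀ k, j ≠ n k ∧ j ≠ -(n k : ℤ)) → fourierCoeff f j = 0

theorem integral_mul_fourier (f : UnitAddCircle → ℂ) (j : ℤ) :
    ∫ x, f x * fourier j x ∂haarAddCircle = fourierCoeff f (-j) := by
  simp [fourierCoeff, mul_comm]

theorem integral_eq_zero_of_gapSpectrum (h : IsGap n) {f : UnitAddCircle → ℂ}
    (hs : HasGapSpectrum n f) : ∫ x, f x ∂haarAddCircle = 0 := by
  have h0 := integral_mul_fourier f 0
  simp only [fourier_zero, mul_one, neg_zero] at h0
  rw [h0]
  refine hs 0 fun k => ?_
  have := h.strictMono.monotone (Nat.zero_le k)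
  have := h.1
  omega

/-- The pairing of such a function with a Riesz product. -/
theorem pairing_gapSpectrum (h : IsGap n) (c : ℕ → ℂ) {f : UnitAddCircle → ℂ}
    (hf : Integrable f haarAddCircle) (hs : HasGapSpectrum n f) (K : ℕ) :
    pairing n c K f = ∑ k ∈ range K, (c k / 2 * fourierCoeff f (-(n k : ℤ)) +
      conj (c k) / 2 * fourierCoeff f (n k : ℤ)) := by
  induction K with
  | zero => rw [pairing_zero, sum_range_zero, integral_eq_zero_of_gapSpectrum h hs]
  | succ K ih =>
    have key : ∀ s : ℤ, s.natAbs = n K →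
        pairing n c K (fun x => f x * fourier s x) = fourierCoeff f (-s) := fun s hs' => by
      rw [pairing_eq_integral c h K (integrable_mul_fourier hf s) fun j hj hjB => ?_,
        integral_mul_fourier]
      simp_rw [mul_assoc, ← fourier_add]
      rw [integral_mul_fourier]
      refine hs _ fun i => ?_
      have := h.two_mul_degreeBound_lt K
      rcases lt_trichotomy i K with hi | rfl | hi
      · have := le_degreeBound n hi
        omega
      · omega
      · have := h.three_mul_le hi
        omega
    rw [pairing_succ c hf, ih, sum_range_succ, key _ (Int.natAbs_natCast _), key _ (by simp),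
      neg_neg]
    ring

theorem norm_pairing_le (h : IsGap n) {c : ℕ → ℂ} (hc : ∀ k, ‖c k‖ ≤ 1) {f : UnitAddCircle → ℂ}
    {M : ℝ} (hM : ∀ᵐ x ∂haarAddCircle, ‖f x‖ ≤ M) (K : ℕ) : ‖pairing n c K f‖ ≤ M := by
  have hR : Integrable (fun x => partialProduct n c K x)
      (haarAddCircle : Measure UnitAddCircle) :=
    (continuous_partialProduct n c K).integrable_of_hasCompactSupport
      (HasCompactSupport.of_compactSpace _)
  have h1 : ∫ x, partialProduct n c K x ∂haarAddCircle = 1 := by
    have := coeff_zero_index c h K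
    simp only [coeff, pairing, fourier_zero, one_mul] at this
    rw [integral_complex_ofReal] at this
    exact_mod_cast this
  refine (norm_integral_le_of_norm_le (hR.const_mul M) ?_).trans ?_
  · filter_upwards [hM] with x hx
    rw [norm_mul, Complex.norm_real, Real.norm_of_nonneg (partialProduct_nonneg hc K x)]
    exact mul_le_mul_of_nonneg_right hx (partialProduct_nonneg hc K x)
  · rw [integral_const_mul, h1, mul_one]

/-- The phase of `z`. -/
theorem exists_phase (z : ℂ) : ∃ u : ℂ, ‖u‖ ≤ 1 ∧ conj u * z = ‖z‖ := by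
  refine ⟨z / ‖z‖, ?_, ?_⟩
  · rw [norm_div, Complex.norm_real, norm_norm]
    exact div_self_le_one _
  · rcases eq_or_ne z 0 with rfl | hz
    · simp
    rw [map_div₀, Complex.conj_ofReal, div_mul_eq_mul_div, Complex.conj_mul', sq,
      mul_div_assoc, div_self (by simpa using hz), mul_one]

/-- **Sidon's theorem**, for one of the two halves of the spectrum. -/
theorem sum_norm_fourierCoeff_le (h : IsGap n) {f : UnitAddCircle → ℂ}
    (hf : AEStronglyMeasurable f haarAddCircle) {M : ℝ}
    (hM : ∀ᵐ x ∂haarAddCircle, ‖f x‖ ≤ M) (hs : HasGapSpectrum n f) (K : ℕ) :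
    ∑ k ∈ range K, ‖fourierCoeff f (n k : ℤ)‖ ≤ 2 * M ∧
      ∑ k ∈ range K, ‖fourierCoeff f (-(n k : ℤ))‖ ≤ 2 * M := by
  have hint : Integrable f haarAddCircle := Integrable.of_bound hf M hM
  choose u hu huz using exists_phase
  have hI : ‖(Complex.I : ℂ)‖ = 1 := Complex.norm_I
  constructor
  · set c : ℕ → ℂ := fun k => u (fourierCoeff f (n k : ℤ)) with hcdef
    have e : ((∑ k ∈ range K, ‖fourierCoeff f (n k : ℤ)‖ : ℝ) : ℂ) =
        pairing n c K f + Complex.I * pairing n (fun k => Complex.I * c k) K f := by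
      rw [pairing_gapSpectrum h c hint hs, pairing_gapSpectrum h _ hint hs, Complex.ofReal_sum,
        mul_sum, ← sum_add_distrib]
      refine sum_congr rfl fun k _ => ?_
      rw [← huz, map_mul, Complex.conj_I]
      linear_combination (conj (c k) / 2 * fourierCoeff f (n k : ℤ) -
        c k / 2 * fourierCoeff f (-(n k : ℤ))) * Complex.I_mul_I
    calc ∑ k ∈ range K, ‖fourierCoeff f (n k : ℤ)‖
        ≤ ‖((∑ k ∈ range K, ‖fourierCoeff f (n k : ℤ)‖ : ℝ) : ℂ)‖ := by
          rw [Complex.norm_real]; exact Real.le_norm_self _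
      _ ≤ M + M := by
          rw [e]
          refine (norm_add_le _ _).trans (add_le_add
            (norm_pairing_le h (fun k => hu _) hM K) ?_)
          rw [norm_mul, hI, one_mul]
          exact norm_pairing_le h (fun k => by rw [norm_mul, hI, one_mul]; exact hu _) hM K
      _ = 2 * M := by ring
  · set c : ℕ → ℂ := fun k => conj (u (fourierCoeff f (-(n k : ℤ)))) with hcdef
    have hc : ∀ k, ‖c k‖ ≤ 1 := fun k => by rw [hcdef, RCLike.norm_conj]; exact hu _
    have e : ((∑ k ∈ range K, ‖fourierCoeff f (-(n k : ℤ))‖ : ℝ) : ℂ) =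
        pairing n c K f - Complex.I * pairing n (fun k => Complex.I * c k) K f := by
      rw [pairing_gapSpectrum h c hint hs, pairing_gapSpectrum h _ hint hs, Complex.ofReal_sum,
        mul_sum, ← sum_sub_distrib]
      refine sum_congr rfl fun k _ => ?_
      rw [← huz, map_mul, Complex.conj_I]
      linear_combination (c k / 2 * fourierCoeff f (-(n k : ℤ)) -
        conj (c k) / 2 * fourierCoeff f (n k : ℤ)) * Complex.I_mul_I
    calc ∑ k ∈ range K, ‖fourierCoeff f (-(n k : ℤ))‖
        ≤ ‖((∑ k ∈ range K, ‖fourierCoeff f (-(n k : ℤ))‖ : ℝ) : ℂ)‖ := by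
          rw [Complex.norm_real]; exact Real.le_norm_self _
      _ ≤ M + M := by
          rw [e]
          refine (norm_sub_le _ _).trans (add_le_add (norm_pairing_le h hc hM K) ?_)
          rw [norm_mul, hI, one_mul]
          exact norm_pairing_le h (fun k => by rw [norm_mul, hI, one_mul]; exact hc k) hM K
      _ = 2 * M := by ring

/-- **Sidon's theorem.** A bounded function with lacunary spectrum has absolutely summable
Fourier coefficients. -/
theorem summable_norm_fourierCoeff (h : IsGap n) {f : UnitAddCircle → ℂ}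
    (hf : AEStronglyMeasurable f haarAddCircle) {M : ℝ}
    (hM : ∀ᵐ x ∂haarAddCircle, ‖f x‖ ≤ M) (hs : HasGapSpectrum n f) :
    Summable fun j : ℤ => ‖fourierCoeff f j‖ := by
  have hinj : Function.Injective fun k : ℕ => (n k : ℤ) :=
    Nat.cast_injective.comp h.strictMono.injective
  have hinj' : Function.Injective fun k : ℕ => -(n k : ℤ) := neg_injective.comp hinj
  have key : ∀ g : ℕ → ℤ, Function.Injective g →
      (∀ K, ∑ k ∈ range K, ‖fourierCoeff f (g k)‖ ≤ 2 * M) →
      Summable (Set.indicator (Set.range g) fun j => ‖fourierCoeff f j‖) := fun g hg hb => by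
    refine (hg.summable_iff fun j hj => Set.indicator_of_notMem hj _).1 ?_
    have e : Set.indicator (Set.range g) (fun j => ‖fourierCoeff f j‖) ∘ g =
        fun k => ‖fourierCoeff f (g k)‖ :=
      funext fun k => Set.indicator_of_mem (Set.mem_range_self k) _
    rw [e]
    exact summable_of_sum_range_le (fun k => norm_nonneg _) hb
  refine Summable.of_nonneg_of_le (fun j => norm_nonneg _) (fun j => ?_)
    ((key _ hinj fun K => (sum_norm_fourierCoeff_le h hf hM hs K).1).add
      (key _ hinj' fun K => (sum_norm_fourierCoeff_le h hf hM hs K).2))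
  by_cases h1 : j ∈ Set.range fun k : ℕ => (n k : ℤ)
  · rw [Set.indicator_of_mem h1]
    exact le_add_of_nonneg_right (Set.indicator_nonneg (fun _ _ => norm_nonneg _) j)
  by_cases h2 : j ∈ Set.range fun k : ℕ => -(n k : ℤ)
  · rw [Set.indicator_of_mem h2]
    exact le_add_of_nonneg_left (Set.indicator_nonneg (fun _ _ => norm_nonneg _) j)
  rw [hs j fun k => ⟨fun e => h1 ⟨k, e.symm⟩, fun e => h2 ⟨k, e.symm⟩⟩, norm_zero]
  exact add_nonneg (Set.indicator_nonneg (fun _ _ => norm_nonneg _) j)
    (Set.indicator_nonneg (fun _ _ => norm_nonneg _) j)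

/-- **Sidon's inequality** for a lacunary sum. -/
theorem sum_norm_le_of_lacunary_sum (h : IsGap n) (s : Finset ℕ) (a : ℕ → ℂ) {M : ℝ}
    (hM : ∀ x : UnitAddCircle, ‖∑ k ∈ s, a k * fourier (n k : ℤ) x‖ ≤ M) :
    ∑ k ∈ s, ‖a k‖ ≤ 2 * M := by
  classical
  set f : UnitAddCircle → ℂ := fun x => ∑ k ∈ s, a k * fourier (n k : ℤ) x with hf
  have hcf : ∀ j : ℤ, fourierCoeff f j = ∑ k ∈ s, if (n k : ℤ) = j then a k else 0 := fun j => by
    have e : ∀ x : UnitAddCircle, f x * fourier (-j) x =
        ∑ k ∈ s, a k * fourier ((n k : ℤ) + -j) x := fun x => by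
      simp only [hf, sum_mul, fourier_add, mul_assoc]
    rw [← neg_neg j, ← integral_mul_fourier, neg_neg, integral_congr_ae (Eventually.of_forall e),
      integral_finsetSum _ fun k _ => (integrable_fourier _).const_mul _]
    refine sum_congr rfl fun k _ => ?_
    rw [integral_const_mul, integral_fourier]
    split_ifs with u v v <;> first | (exfalso; omega) | ring
  have hs : HasGapSpectrum n f := fun j hj => by
    rw [hcf]
    exact sum_eq_zero fun k _ => if_neg fun e => (hj k).1 e.symm
  have hcont : Continuous f := by fun_prop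
  obtain ⟨K, hK⟩ : ∃ K, s ⊆ range K := ⟨s.sup id + 1, fun k hk => mem_range.2
    (Nat.lt_succ_of_le (le_sup (f := id) hk))⟩
  refine le_trans ?_ (sum_norm_fourierCoeff_le h hcont.aestronglyMeasurable
    (Eventually.of_forall hM) hs K).1
  refine le_trans (sum_le_sum fun k hk => le_of_eq ?_)
    (sum_le_sum_of_subset_of_nonneg hK fun k _ _ => norm_nonneg _)
  rw [hcf, sum_eq_single k (fun i _ hik => if_neg fun e => hik (h.strictMono.injective
    (by exact_mod_cast e))) (fun hk' => absurd hk hk'), if_pos rfl]

end FA.RieszProducts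

end
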