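import Fermat.Agent.RieszProducts.Measure
import Mathlib.MeasureTheory.OuterMeasure.BorelCantelli

/-!
# Zygmund's dichotomy

If `∑ ‖c k‖²` diverges the suitably weighted sums of `e (n k x)` tend to `0` for Lebesgue measure
and to `1 / 2` for the Riesz product (Peyrière's proof), so that the two are mutually singular;
if it converges the partial products are bounded in `L²`, so that the Riesz product is absolutely
continuous.
-/

set_option autoImplicit false

noncomputable section

open MeasureTheory Finset Filter Topology AddCircle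
open scoped ComplexConjugate ENNReal

namespace FA.RieszProducts

variable {n : ℕ → ℕ} {c : ℕ → ℂ}

/-- **Peyrière's orthogonality**, for any measure with uncorrelated `e (n k x)`. -/
theorem integral_norm_sq_sum_le (μ : Measure UnitAddCircle) [IsProbabilityMeasure μ]
    (s : Finset ℕ) (a b : ℕ → ℂ) (hb : ∀ k ∈ s, ∫ x, fourier (n k : ℤ) x ∂μ = b k)
    (hbb : ∀ j ∈ s, ∀ k ∈ s, j ≠ k →
      ∫ x, fourier ((n j : ℤ) - n k) x ∂μ = b j * conj (b k)) :
    ∫ x, ‖∑ k ∈ s, a k * (fourier (n k : ℤ) x - b k)‖ ^ 2 ∂μ ≤ ∑ k ∈ s, ‖a k‖ ^ 2 := by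
  classical
  have hint : ∀ g : UnitAddCircle → ℂ, Continuous g → Integrable g μ := fun g hg =>
    hg.integrable_of_hasCompactSupport (HasCompactSupport.of_compactSpace g)
  have cross : ∀ j ∈ s, ∀ k ∈ s,
      ∫ x, (fourier (n j : ℤ) x - b j) * conj (fourier (n k : ℤ) x - b k) ∂μ =
        (if j = k then 1 else b j * conj (b k)) - b j * conj (b k) := fun j hj k hk => by
    have e : ∀ x : UnitAddCircle, (fourier (n j : ℤ) x - b j) *
        conj (fourier (n k : ℤ) x - b k) = fourier ((n j : ℤ) - n k) x -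
          conj (b k) * fourier (n j : ℤ) x - b j * conj (fourier (n k : ℤ) x) +
            b j * conj (b k) := fun x => by
      rw [sub_eq_add_neg (n j : ℤ), fourier_add, fourier_neg, map_sub]
      ring
    rw [integral_congr_ae (Eventually.of_forall e), integral_add (hint _ (by fun_prop))
        (integrable_const _),
      integral_sub (hint _ (by fun_prop)) (hint _ (by fun_prop)),
      integral_sub (hint _ (by fun_prop)) (hint _ (by fun_prop)),
      integral_const_mul, integral_const_mul, integral_conj, hb j hj, hb k hk, integral_const,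
      probReal_univ, one_smul]
    rcases eq_or_ne j k with rfl | hne
    · rw [if_pos rfl, sub_self]
      simp only [fourier_zero, integral_const, probReal_univ, one_smul]
      ring
    · rw [if_neg hne, hbb j hj k hk hne]
      ring
  have hsq : ∀ z : ℂ, ((‖z‖ ^ 2 : ℝ) : ℂ) = z * conj z := fun z => by
    rw [Complex.mul_conj, Complex.normSq_eq_norm_sq]
  have h1 : ((∫ x, ‖∑ k ∈ s, a k * (fourier (n k : ℤ) x - b k)‖ ^ 2 ∂μ : ℝ) : ℂ) =
      ((∑ k ∈ s, ‖a k‖ ^ 2 * (1 - ‖b k‖ ^ 2) : ℝ) : ℂ) := by
    rw [← integral_complex_ofReal, Complex.ofReal_sum]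
    have e : ∀ x : UnitAddCircle,
        ((‖∑ k ∈ s, a k * (fourier (n k : ℤ) x - b k)‖ ^ 2 : ℝ) : ℂ) =
        ∑ j ∈ s, ∑ k ∈ s, a j * conj (a k) *
          ((fourier (n j : ℤ) x - b j) * conj (fourier (n k : ℤ) x - b k)) := fun x => by
      rw [hsq, map_sum, sum_mul_sum]
      exact sum_congr rfl fun j _ => sum_congr rfl fun k _ => by rw [map_mul]; ring
    rw [integral_congr_ae (Eventually.of_forall e),
      integral_finsetSum _ fun j _ => hint _ (by fun_prop)]
    refine sum_congr rfl fun j hj => ?_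
    rw [integral_finsetSum _ fun k _ => hint _ (by fun_prop), sum_eq_single j]
    · rw [integral_const_mul, cross j hj j hj, if_pos rfl]
      push_cast
      rw [← Complex.mul_conj', ← Complex.mul_conj']
    · intro k hk hkj
      rw [integral_const_mul, cross j hj k hk, if_neg hkj.symm, sub_self, mul_zero]
    · exact fun h' => absurd hj h'
  rw [Complex.ofReal_inj] at h1
  rw [h1]
  exact sum_le_sum fun k _ =>
    mul_le_of_le_one_right (sq_nonneg _) (by nlinarith [norm_nonneg (b k)])

/-- Chebyshev's inequality. -/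
theorem measure_quarter_le_norm_le (μ : Measure UnitAddCircle) [IsFiniteMeasure μ]
    {g : UnitAddCircle → ℂ} (hg : Continuous g) {v : ℝ} (hv : ∫ x, ‖g x‖ ^ 2 ∂μ ≤ v) :
    μ {x | 1 / 4 ≤ ‖g x‖} ≤ ENNReal.ofReal (16 * v) := by
  have h := mul_meas_ge_le_integral_of_nonneg (μ := μ) (f := fun x => ‖g x‖ ^ 2)
    (Eventually.of_forall fun x => sq_nonneg _)
    ((by fun_prop : Continuous fun x => ‖g x‖ ^ 2).integrable_of_hasCompactSupport
      (HasCompactSupport.of_compactSpace _)) (1 / 16)
  refine (measure_mono fun x (hx : 1 / 4 ≤ ‖g x‖) => ?_).trans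
    ((ofReal_measureReal (s := {x | 1 / 16 ≤ ‖g x‖ ^ 2})).ge.trans
      (ENNReal.ofReal_le_ofReal (by linarith)))
  change 1 / 16 ≤ ‖g x‖ ^ 2
  nlinarith

theorem IsRieszProduct.integral_fourier_self (h : IsGap n) {μ : Measure UnitAddCircle}
    (hμ : IsRieszProduct n c μ) (k : ℕ) :
    ∫ x, fourier (n k : ℤ) x ∂μ = conj (c k) / 2 :=
  hμ.integral_fourier ((eventually_gt_atTop k).mono fun _ hK => coeff_self c h hK)

theorem IsRieszProduct.integral_fourier_sub (h : IsGap n) {μ : Measure UnitAddCircle}
    (hμ : IsRieszProduct n c μ) {j k : ℕ} (hjk : j ≠ k) :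
    ∫ x, fourier ((n j : ℤ) - n k) x ∂μ = conj (c j) / 2 * conj (conj (c k) / 2) := by
  refine hμ.integral_fourier ?_
  filter_upwards [eventually_gt_atTop j, eventually_gt_atTop k] with K hj hk
  rw [coeff_sub c h hj hk hjk, map_div₀, Complex.conj_conj, map_ofNat]

/-- **Divergence gives a singular measure.** -/
theorem mutuallySingular_of_not_summable (h : IsGap n) {μ : Measure UnitAddCircle}
    (hμ : IsRieszProduct n c μ) (hd : ¬Summable fun k => ‖c k‖ ^ 2) :
    μ ⟂ₘ (haarAddCircle : Measure UnitAddCircle) := by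
  have := hμ.1
  set S : ℕ → ℝ := fun N => ∑ k ∈ range N, ‖c k‖ ^ 2 with hS
  have hSt : Tendsto S atTop atTop :=
    (not_summable_iff_tendsto_nat_atTop_of_nonneg fun k => sq_nonneg ‖c k‖).1 hd
  choose N hN using fun i : ℕ => (hSt.eventually (eventually_ge_atTop ((2 : ℝ) ^ i))).exists
  set F : ℕ → UnitAddCircle → ℂ := fun i x =>
    ∑ k ∈ range (N i), c k / (S (N i) : ℂ) * fourier (n k : ℤ) x with hF
  have hpos : ∀ i, 0 < S (N i) := fun i => lt_of_lt_of_le (by positivity) (hN i)
  have hcoef : ∀ i, ∑ k ∈ range (N i), ‖c k / (S (N i) : ℂ)‖ ^ 2 = 1 / S (N i) := fun i => by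
    simp_rw [norm_div, Complex.norm_real, Real.norm_of_nonneg (hpos i).le, div_pow, ← sum_div]
    change S (N i) / S (N i) ^ 2 = 1 / S (N i)
    have := (hpos i).ne'
    field_simp
  have hsum : (∑' i, ENNReal.ofReal (16 * (1 / S (N i)))) ≠ ∞ := by
    refine (Summable.of_nonneg_of_le (fun i => by have := hpos i; positivity) (fun i => ?_)
      ((summable_geometric_of_lt_one (r := (1 / 2 : ℝ)) (by norm_num) (by norm_num)).mul_left
        16)).tsum_ofReal_ne_top
    rw [one_div_pow]
    exact mul_le_mul_of_nonneg_left (one_div_le_one_div_of_le (by positivity) (hN i)) (by norm_num)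
  -- Lebesgue measure
  have hvol : ∀ i, haarAddCircle {x | 1 / 4 ≤ ‖F i x‖} ≤ ENNReal.ofReal (16 * (1 / S (N i))) :=
    fun i => by
    refine measure_quarter_le_norm_le _ (by fun_prop) ?_
    rw [← hcoef i]
    have h2 := integral_norm_sq_sum_le (n := n) haarAddCircle (range (N i))
      (fun k => c k / (S (N i) : ℂ)) 0 (fun k _ => ?_) fun j _ k _ hjk => ?_
    · simpa only [hF, Pi.zero_apply, sub_zero] using h2
    · rw [integral_fourier, if_neg, Pi.zero_apply]
      have := h.strictMono.monotone (Nat.zero_le k)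
      have := h.1
      omega
    · rw [integral_fourier, if_neg, Pi.zero_apply, zero_mul]
      have := h.strictMono.injective.ne hjk
      omega
  -- the Riesz product
  have hmu : ∀ i, μ {x | ‖F i x‖ < 1 / 4} ≤ ENNReal.ofReal (16 * (1 / S (N i))) := fun i => by
    have e : ∀ x, ∑ k ∈ range (N i), c k / (S (N i) : ℂ) *
        (fourier (n k : ℤ) x - conj (c k) / 2) = F i x - 1 / 2 := fun x => by
      simp only [hF, mul_sub, sum_sub_distrib]
      congr 1
      have e2 : ∀ k, c k / (S (N i) : ℂ) * (conj (c k) / 2) =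
          ((‖c k‖ ^ 2 : ℝ) : ℂ) / (2 * (S (N i) : ℂ)) := fun k => by
        rw [Complex.ofReal_pow, ← Complex.mul_conj']
        field_simp
      simp only [e2, ← sum_div, ← Complex.ofReal_sum]
      change ((S (N i) : ℝ) : ℂ) / _ = _
      have : (S (N i) : ℂ) ≠ 0 := Complex.ofReal_ne_zero.2 (hpos i).ne'
      field_simp
    refine (measure_mono fun x (hx : ‖F i x‖ < 1 / 4) => ?_).trans
      (measure_quarter_le_norm_le μ (g := fun x => F i x - 1 / 2) (by fun_prop) ?_)
    · change 1 / 4 ≤ ‖F i x - 1 / 2‖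
      have h3 := norm_sub_norm_le (1 / 2 : ℂ) (F i x)
      rw [norm_sub_rev] at h3
      norm_num at h3
      linarith
    · rw [← hcoef i]
      simp only [← e]
      exact integral_norm_sq_sum_le μ (range (N i)) _ _
        (fun k _ => hμ.integral_fourier_self h k) fun j _ k _ hjk =>
          hμ.integral_fourier_sub h hjk
  refine Measure.MutuallySingular.mk
    (s := limsup (fun i => {x | ‖F i x‖ < 1 / 4}) atTop)
    (t := limsup (fun i => {x | 1 / 4 ≤ ‖F i x‖}) atTop)
    (measure_limsup_atTop_eq_zero (ne_top_of_le_ne_top hsum (ENNReal.tsum_le_tsum hmu)))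
    (measure_limsup_atTop_eq_zero (ne_top_of_le_ne_top hsum (ENNReal.tsum_le_tsum hvol))) ?_
  intro x _
  simp only [Set.mem_union, mem_limsup_iff_frequently_mem]
  exact frequently_or_distrib.1
    ((Eventually.of_forall fun i => lt_or_ge ‖F i x‖ (1 / 4)).frequently)

theorem pairing_partialProduct_eq (h : IsGap n) (c : ℕ → ℂ) (K : ℕ) :
    pairing n c K (fun x => (partialProduct n c K x : ℂ)) =
      ((∏ k ∈ range K, (1 + ‖c k‖ ^ 2 / 2) : ℝ) : ℂ) := by
  induction K with
  | zero => simp [pairing, partialProduct]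
  | succ K ih =>
    rw [pairing_partialProduct_succ c h, ih, prod_range_succ, Complex.mul_conj']
    push_cast
    ring

theorem integral_sq_partialProduct_le (h : IsGap n) {B : ℝ}
    (hB : ∀ K, ∑ k ∈ range K, ‖c k‖ ^ 2 ≤ B) (K : ℕ) :
    ∫ x, partialProduct n c K x ^ 2 ∂haarAddCircle ≤ Real.exp (B / 2) := by
  have e := pairing_partialProduct_eq h c K
  rw [pairing] at e
  simp only [← Complex.ofReal_mul] at e
  rw [integral_complex_ofReal, Complex.ofReal_inj] at e
  simp only [sq (partialProduct n c K _)]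
  rw [e]
  calc ∏ k ∈ range K, (1 + ‖c k‖ ^ 2 / 2) ≤ ∏ k ∈ range K, Real.exp (‖c k‖ ^ 2 / 2) :=
        prod_le_prod (fun k _ => by positivity) fun k _ => by
          linarith [Real.add_one_le_exp (‖c k‖ ^ 2 / 2)]
    _ = Real.exp (∑ k ∈ range K, ‖c k‖ ^ 2 / 2) := (Real.exp_sum _ _).symm
    _ ≤ Real.exp (B / 2) := Real.exp_le_exp.2 (by rw [← sum_div]; linarith [hB K])

/-- **Convergence gives an absolutely continuous measure.** -/
theorem absolutelyContinuous_of_summable (h : IsGap n) (hc : ∀ k, ‖c k‖ ≤ 1)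
    {μ : Measure UnitAddCircle} (hμ : IsRieszProduct n c μ) (hs : Summable fun k => ‖c k‖ ^ 2) :
    μ ≪ (haarAddCircle : Measure UnitAddCircle) := by
  refine Measure.AbsolutelyContinuous.mk fun A _ hA => ?_
  set M := Real.exp ((∑' k, ‖c k‖ ^ 2) / 2) with hM
  have hM0 : 0 < M := Real.exp_pos _
  refine le_antisymm (le_of_forall_gt fun ε hε => ?_) bot_le
  obtain ⟨r, -, hr0, hrε⟩ := ENNReal.lt_iff_exists_real_btwn.1 hε
  have hr : 0 < r := ENNReal.ofReal_pos.1 hr0
  set δ := r / (2 * M) with hδ
  have hδ0 : 0 < δ := by positivity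
  obtain ⟨U, hAU, hU, hUm⟩ := A.exists_isOpen_lt_add (μ := haarAddCircle) (by simp [hA])
    (ε := ENNReal.ofReal (r * (2 * δ))) (ENNReal.ofReal_pos.2 (by positivity)).ne'
  rw [hA, zero_add] at hUm
  have hUr : haarAddCircle.real U ≤ r * (2 * δ) :=
    ENNReal.toReal_le_of_le_ofReal (by positivity) hUm.le
  refine lt_of_le_of_lt ?_ hrε
  refine (measure_mono hAU).trans (hμ.le_of_isOpen h hc hU fun K => ?_)
  have hi := integrable_partialProduct n c K
  have hi2 : Integrable (fun x => partialProduct n c K x ^ 2)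
      (haarAddCircle : Measure UnitAddCircle) :=
    ((continuous_partialProduct n c K).pow 2).integrable_of_hasCompactSupport
      (HasCompactSupport.of_compactSpace _)
  calc ∫ x in U, partialProduct n c K x ∂haarAddCircle
      ≤ ∫ x in U, (δ * partialProduct n c K x ^ 2 + 1 / (4 * δ)) ∂haarAddCircle := by
        refine setIntegral_mono hi.integrableOn
          ((hi2.const_mul δ).add (integrable_const _)).integrableOn fun x => ?_
        rw [← sub_nonneg, show δ * partialProduct n c K x ^ 2 + 1 / (4 * δ) -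
          partialProduct n c K x = (2 * δ * partialProduct n c K x - 1) ^ 2 / (4 * δ) by
            field_simp; ring]
        positivity
    _ = δ * (∫ x in U, partialProduct n c K x ^ 2 ∂haarAddCircle) +
        haarAddCircle.real U * (1 / (4 * δ)) := by
        rw [integral_add (hi2.const_mul δ).restrict (integrable_const _), integral_const_mul,
          setIntegral_const, smul_eq_mul]
    _ ≤ δ * M + r * (2 * δ) * (1 / (4 * δ)) := by
        gcongr
        refine (setIntegral_le_integral hi2 (Eventually.of_forall fun x => sq_nonneg _)).trans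
          (integral_sq_partialProduct_le h (fun K => ?_) K)
        exact hs.sum_le_tsum _ fun k _ => sq_nonneg _
    _ = r := by rw [hδ]; field_simp; ring

/-- **Zygmund's dichotomy.** -/
theorem mutuallySingular_iff (h : IsGap n) (hc : ∀ k, ‖c k‖ ≤ 1) {μ : Measure UnitAddCircle}
    (hμ : IsRieszProduct n c μ) :
    (μ ⟂ₘ (haarAddCircle : Measure UnitAddCircle)) ↔ ¬Summable fun k => ‖c k‖ ^ 2 := by
  refine ⟨fun hsing hs => ?_, mutuallySingular_of_not_summable h hμ⟩
  have := hμ.1
  exact (NeZero.ne μ) (Measure.eq_zero_of_absolutelyContinuous_of_mutuallySingular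
    (absolutelyContinuous_of_summable h hc hμ hs) hsing)

end FA.RieszProducts

end
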